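/-
Programme MAZ (S15), brick U6 TORS-CMP, part (T3) GENUS (helper12), file 2:
**`dim H¹(O)` of a two-chart model is invariant under extension of the base field.**

`B0, B1, B01` rings over a base ring `W` (the charts of a two-chart model over `W`), `K1 → K2`
fields over `W`.  Then the structure sheaves of the base-changed charts `K_i ⊗[W] B_j` have
`H¹` of the same dimension (`finrank_unit_H1_baseChange`), by `SmallClasses42Field.finrank_H1BC_eq`.
-/
import Mathlib
import Fermat.Agent.Jac.SmallClasses42Field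
import Fermat.Agent.Jac.BaseChange75.Tensor
import Fermat.Agent.Jac.BaseChange75.RingIso
import Fermat.Agent.Jac.P1CohChi.TwistFormula

set_option autoImplicit false
set_option linter.unusedSectionVars false

universe u

open TensorProduct

namespace Fermat.Agent.MAZ.TorsCmp12

open Fermat.Agent.Jac Fermat.Agent.Jac.BaseChange75 Fermat.Agent.Jac.JSmooth85Alg
open scoped Fermat.Agent.Jac.BaseChange75

variable {W B0 B1 B01 : Type u} [CommRing W] [CommRing B0] [CommRing B1] [CommRing B01]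
  [Algebra W B0] [Algebra W B1] [Algebra W B01] [Algebra B0 B01] [Algebra B1 B01]
  [IsScalarTower W B0 B01] [IsScalarTower W B1 B01]
  (K1 K2 : Type u) [Field K1] [Field K2] [Algebra W K1] [Algebra W K2] [Algebra K1 K2]
  [IsScalarTower W K1 K2]

/-- **`dim H¹(O)` does not change under extension of the base field.** -/
theorem finrank_unit_H1_baseChange :
    Module.finrank K2 (QC2.unit : QC2 K2 (K2 ⊗[W] B0) (K2 ⊗[W] B1) (K2 ⊗[W] B01)).H1 =
      Module.finrank K1 (QC2.unit : QC2 K1 (K1 ⊗[W] B0) (K1 ⊗[W] B1) (K1 ⊗[W] B01)).H1 := by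
  have h : LiftData (QC2.unit : QC2 K1 (K1 ⊗[W] B0) (K1 ⊗[W] B1) (K1 ⊗[W] B01))
      (QC2.unit : QC2 K2 (K2 ⊗[W] B0) (K2 ⊗[W] B1) (K2 ⊗[W] B01)) :=
    LiftData.unit (square_comm W K1 K2 B0 B01) (square_comm W K1 K2 B1 B01)
  rw [← (LiftData.h1Equiv h).finrank_eq,
    SmallClasses42Field.finrank_H1BC_eq
      (QC2.unit : QC2 K1 (K1 ⊗[W] B0) (K1 ⊗[W] B1) (K1 ⊗[W] B01)) K1 K2,
    (P1CohChi.H1BCSelfEquiv _).finrank_eq]

end Fermat.Agent.MAZ.TorsCmp12
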