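/-
Programme MAZ (S15), brick U6 TORS-CMP, part (T3) GENUS (helper12), file 1:
**the genus of a function field is `dim H¹(O)` of any two-chart Dedekind model.**

`K` any field, `c : TwoChart K R0 R1 R01` finite projective over the line, `R0`, `R1` Dedekind
domains with fraction field `F` (compatibly through `R01`).  Then
`finrank_unit_H1_eq_genusFF : finrank K (QC2.unit : QC2 K R0 R1 R01).H1 = genusFF K F`
(Prelude `AlgebraicCurve.genusFF`), by helper53's characteristic-free Čech computation
`T1B/GenusRed53` (`chartHyp_of_dedekind`, `finrank_cech`, `mem_overlap_iff`).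
-/
import Mathlib
import Fermat.Agent.T1B.GenusRed53.Dedekind
import Fermat.Agent.Jac.Core
import Fermat.Agent.Jac.DegAdd79

set_option autoImplicit false
set_option linter.style.haveILetI false
set_option linter.unusedSectionVars false

universe u

open AlgebraicCurve Polynomial

namespace Fermat.Agent.MAZ.TorsCmp12

open Fermat.Agent.Jac Fermat.Agent.X0.FF Fermat.Agent.X0.FFDedekind
  Fermat.Agent.AV.F3_53.Charts Fermat.Agent.AV.F3_53.Cech
  Fermat.Agent.T1B.GenusRed53.CechAbs Fermat.Agent.T1B.GenusRed53.Dedekind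

variable {K F R0 R1 R01 : Type u} [Field K] [Field F] [Algebra K F]
  [CommRing R0] [CommRing R1] [CommRing R01] [Algebra K R0] [Algebra K R1] [Algebra K R01]
  [Algebra R0 R01] [Algebra R1 R01] [IsScalarTower K R0 R01] [IsScalarTower K R1 R01]
  [Algebra R0 F] [Algebra R1 F] [Algebra R01 F]
  [IsScalarTower K R0 F] [IsScalarTower K R1 F] [IsScalarTower R0 R01 F] [IsScalarTower R1 R01 F]

/-- An algebra which is module-finite over `K[t]` is contained in the valuation ring of every
place at which `t` is regular. -/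
theorem algebraMap_mem_of_finite {R : Type u} [CommRing R] [Algebra K R] [Algebra R F]
    [IsScalarTower K R F] (t : R) (hfin : Module.Finite K[X] (Module.AEval K R t))
    (v : Place K F) (hv : algebraMap R F t ∈ v.toValuationSubring) (b : R) :
    algebraMap R F b ∈ v.toValuationSubring := by
  letI : Algebra K[X] R := (Polynomial.aeval t).toRingHom.toAlgebra
  let eR : R ≃ₗ[K[X]] Module.AEval K R t :=
    { (Module.AEval.of K R t).toAddEquiv with
      map_smul' := fun p r => by
        show Module.AEval.of K R t (Polynomial.aeval t p • r) = p • Module.AEval.of K R t r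
        exact Module.AEval.of_aeval_smul t p r }
  haveI : Module.Finite K[X] R := Module.Finite.equiv eR.symm
  letI : Algebra K[X] F := ((algebraMap R F).comp (algebraMap K[X] R)).toAlgebra
  haveI : IsScalarTower K[X] R F := IsScalarTower.of_algebraMap_eq fun _ => rfl
  have hint : IsIntegral K[X] b := Algebra.IsIntegral.isIntegral b
  have hint' : IsIntegral K[X] (algebraMap R F b) := hint.algebraMap
  refine mem_of_isIntegral_of_algebraMap_mem v (A := K[X]) (fun P => ?_) hint'
  have h1 : algebraMap K[X] F P = Polynomial.aeval (algebraMap R F t) P := by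
    show algebraMap R F (Polynomial.aeval t P) = _
    rw [← Polynomial.aeval_algebraMap_apply]
  rw [h1]
  exact Fermat.Agent.X0.FF.aeval_mem_of_mem v hv P

section Main

variable [IsDedekindDomain R0] [IsDedekindDomain R1] [IsFractionRing R0 F] [IsFractionRing R1 F]
  (c : TwoChart K R0 R1 R01)

omit [Algebra K F] [Algebra R0 F] [Algebra R1 F] [Algebra R01 F] [IsScalarTower K R0 F]
  [IsScalarTower K R1 F] [IsScalarTower R0 R01 F] [IsScalarTower R1 R01 F] [IsDedekindDomain R0]
  [IsDedekindDomain R1] [IsFractionRing R0 F] [IsFractionRing R1 F] in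
/-- The Čech differential of the structure sheaf. -/
theorem unit_d_apply (x0 : R0) (x1 : R1) :
    (QC2.unit : QC2 K R0 R1 R01).d (x0, x1) = algebraMap R0 R01 x0 - algebraMap R1 R01 x1 := by
  rw [LineOps39.d_apply]
  rfl

include c in
theorem t_mul_s : algebraMap R0 F c.t * algebraMap R1 F c.s = 1 := by
  have h := congrArg (algebraMap R01 F) c.ts
  rwa [map_mul, map_one, ← IsScalarTower.algebraMap_apply, ← IsScalarTower.algebraMap_apply] at h

include c in
/-- `R01 → F` is injective. -/
theorem algebraMap_R01_injective : Function.Injective (algebraMap R01 F) := by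
  have := c.away0
  rw [injective_iff_map_eq_zero]
  intro z hz
  obtain ⟨⟨b, ⟨_, n, rfl⟩⟩, hb⟩ := IsLocalization.surj (Submonoid.powers c.t) z
  have hb' : z * algebraMap R0 R01 (c.t ^ n) = algebraMap R0 R01 b := hb
  have h1 : algebraMap R0 F b = 0 := by
    rw [IsScalarTower.algebraMap_apply R0 R01 F, ← hb', map_mul, hz, zero_mul]
  have h2 : b = 0 := (IsFractionRing.injective R0 F) (by rw [h1, map_zero])
  rw [h2, map_zero] at hb'
  have hu : IsUnit (algebraMap R0 R01 (c.t ^ n)) :=
    IsLocalization.map_units R01 (⟨c.t ^ n, n, rfl⟩ : Submonoid.powers c.t)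
  exact (hu.mul_left_eq_zero).1 hb'

include c in
/-- **The genus of the function field is `dim H¹(O)` of the two-chart model** (only finiteness of
the charts over the line is used). -/
theorem finrank_unit_H1_eq_genusFF_of_finite
    (hfin0 : Module.Finite K[X] (Module.AEval K R0 c.t))
    (hfin1 : Module.Finite K[X] (Module.AEval K R1 c.s)) :
    Module.finrank K (QC2.unit : QC2 K R0 R1 R01).H1 = genusFF K F := by
  have := c.away0
  set t : F := algebraMap R0 F c.t with ht
  have hts : t * algebraMap R1 F c.s = 1 := t_mul_s c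
  have ht0 : t ≠ 0 := left_ne_zero_of_mul_eq_one hts
  have hs : algebraMap R1 F c.s = t⁻¹ := (eq_inv_of_mul_eq_one_right hts)
  have hle0 : ∀ v : Place K F, t ∈ v.toValuationSubring →
      ∀ b : R0, algebraMap R0 F b ∈ v.toValuationSubring :=
    fun v hv b => algebraMap_mem_of_finite c.t hfin0 v hv b
  have hle1 : ∀ v : Place K F, t⁻¹ ∈ v.toValuationSubring →
      ∀ b : R1, algebraMap R1 F b ∈ v.toValuationSubring := by
    intro v hv b
    rw [← hs] at hv
    exact algebraMap_mem_of_finite c.s hfin1 v hv b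
  have h : ChartHyp K t := chartHyp_of_dedekind hle0 hle1 ⟨c.s, hs⟩
  have hreg0 : ∀ f : F, f ∈ regOn K (chartSet K t) ↔ f ∈ (algebraMap R0 F).range :=
    mem_regOn_chartSet_iff_range hle0 ⟨c.t, rfl⟩
  have hreg1 : ∀ f : F, f ∈ regOn K (chartSet K t⁻¹) ↔ f ∈ (algebraMap R1 F).range :=
    mem_regOn_chartSet_iff_range hle1 ⟨c.s, hs⟩
  have hov : ∀ f : F, f ∈ overlap K t ↔ f ∈ (algebraMap R01 F).range := by
    intro f
    rw [mem_overlap_iff h ht0]
    constructor
    · rintro ⟨n, hn⟩
      obtain ⟨b, hb⟩ := (hreg0 _).1 hn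
      refine ⟨algebraMap R1 R01 c.s ^ n * algebraMap R0 R01 b, ?_⟩
      rw [map_mul, map_pow, ← IsScalarTower.algebraMap_apply, ← IsScalarTower.algebraMap_apply,
        hb, hs, ← mul_assoc, ← mul_pow, inv_mul_cancel₀ ht0, one_pow, one_mul]
    · rintro ⟨z, rfl⟩
      obtain ⟨⟨b, ⟨_, n, rfl⟩⟩, hb⟩ := IsLocalization.surj (Submonoid.powers c.t) z
      have hb' : z * algebraMap R0 R01 (c.t ^ n) = algebraMap R0 R01 b := hb
      refine ⟨n, (hreg0 _).2 ⟨b, ?_⟩⟩
      rw [IsScalarTower.algebraMap_apply R0 R01 F, ← hb', map_mul,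
        ← IsScalarTower.algebraMap_apply, map_pow, mul_comm]
  -- the comparison isomorphism
  haveI : IsScalarTower K R01 F := IsScalarTower.of_algebraMap_eq fun a => by
    rw [IsScalarTower.algebraMap_apply K R0 F, IsScalarTower.algebraMap_apply R0 R01 F,
      ← IsScalarTower.algebraMap_apply K R0 R01]
  let Φ : R01 →ₗ[K] F := (IsScalarTower.toAlgHom K R01 F).toLinearMap
  have hΦ : ∀ z, Φ z = algebraMap R01 F z := fun _ => rfl
  let Ψ : R01 →ₗ[K] ↥(Subalgebra.toSubmodule (overlap K t)) :=
    Φ.codRestrict _ (fun z => (hov _).2 ⟨z, rfl⟩)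
  have hΨinj : Function.Injective Ψ := by
    intro a b hab
    have : Φ a = Φ b := congrArg Subtype.val hab
    exact algebraMap_R01_injective c this
  have hΨsurj : Function.Surjective Ψ := by
    rintro ⟨f, hf⟩
    obtain ⟨z, hz⟩ := (hov f).1 hf
    exact ⟨z, Subtype.ext hz⟩
  let e : R01 ≃ₗ[K] ↥(Subalgebra.toSubmodule (overlap K t)) :=
    LinearEquiv.ofBijective Ψ ⟨hΨinj, hΨsurj⟩
  have hrange : ∀ z : R01, z ∈ LinearMap.range (QC2.unit : QC2 K R0 R1 R01).d ↔
      ∃ (x0 : R0) (x1 : R1), algebraMap R0 R01 x0 - algebraMap R1 R01 x1 = z := by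
    intro z
    constructor
    · rintro ⟨x, rfl⟩
      exact ⟨(show R0 from x.1), (show R1 from x.2),
        (unit_d_apply (K := K) (R01 := R01) (show R0 from x.1) (show R1 from x.2)).symm⟩
    · rintro ⟨x0, x1, rfl⟩
      exact ⟨(x0, x1), unit_d_apply (K := K) x0 x1⟩
  have hmap : (LinearMap.range (QC2.unit : QC2 K R0 R1 R01).d).map e.toLinearMap =
      (sumSub K t).submoduleOf (Subalgebra.toSubmodule (overlap K t)) := by
    ext ⟨f, hf⟩
    rw [Submodule.mem_map]
    show _ ↔ f ∈ sumSub K t
    constructor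
    · rintro ⟨z, hzr, hz⟩
      obtain ⟨x0, x1, rfl⟩ := (hrange z).1 hzr
      have hz' : algebraMap R01 F (algebraMap R0 R01 x0 - algebraMap R1 R01 x1) = f :=
        congrArg Subtype.val hz
      rw [← hz', map_sub, ← IsScalarTower.algebraMap_apply, ← IsScalarTower.algebraMap_apply,
        sub_eq_add_neg]
      refine Submodule.add_mem_sup ((hreg0 _).2 ⟨x0, rfl⟩) ?_
      exact (hreg1 _).2 ⟨-x1, map_neg _ _⟩
    · intro hfs
      obtain ⟨a0, ha0, a1, ha1, rfl⟩ := Submodule.mem_sup.1 hfs
      obtain ⟨x0, rfl⟩ := (hreg0 _).1 ha0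
      obtain ⟨x1, rfl⟩ := (hreg1 _).1 ha1
      refine ⟨algebraMap R0 R01 x0 - algebraMap R1 R01 (-x1), (hrange _).2 ⟨x0, -x1, rfl⟩, ?_⟩
      apply Subtype.ext
      show algebraMap R01 F (algebraMap R0 R01 x0 - algebraMap R1 R01 (-x1)) = _
      rw [map_sub, ← IsScalarTower.algebraMap_apply, ← IsScalarTower.algebraMap_apply,
        map_neg, sub_neg_eq_add]
  have e2 := Submodule.Quotient.equiv (LinearMap.range (QC2.unit : QC2 K R0 R1 R01).d)
    ((sumSub K t).submoduleOf (Subalgebra.toSubmodule (overlap K t))) e hmap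
  rw [← finrank_cech h]
  exact e2.finrank_eq

include c in
/-- **The genus of the function field is `dim H¹(O)` of the two-chart model.** -/
theorem finrank_unit_H1_eq_genusFF (hc : c.FiniteProjOverLine) :
    Module.finrank K (QC2.unit : QC2 K R0 R1 R01).H1 = genusFF K F :=
  finrank_unit_H1_eq_genusFF_of_finite c hc.fin0 hc.fin1

end Main

end Fermat.Agent.MAZ.TorsCmp12
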