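/-
Programme MAZ (S15), brick U6 TORS-CMP, part (T3) GENUS (helper12), file 3: **(T3)**.

`c0 : TwoChart W B0 B1 B01` a two-chart model over a base ring `W`, finite projective over the
line; `K1 → K2` fields over `W` (in the application `W = Wb p K`, `K1 = ℚ̄`, `K2 = Ω = ℚ̄_p`);
`F_i / K_i` fields such that the base-changed charts `K_i ⊗[W] B0`, `K_i ⊗[W] B1` are Dedekind
domains with fraction field `F_i`, compatibly through `K_i ⊗[W] B01`.  Then

  `genusFF_eq_of_baseChange : genusFF K2 F2 = genusFF K1 F1`,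
  `genusFF_baseChange_eq    : genusFF K (F) = finrank K H¹(O_{c0 ⊗ K})` (one field).

The second statement is the bridge `CechGenus.finrank_unit_H1_eq_genusFF` for `c0.baseChange K`;
the first combines it with `BaseChangeH1.finrank_unit_H1_baseChange`.
-/
import Mathlib
import Fermat.Agent.MAZ.TorsCmp12.CechGenus
import Fermat.Agent.MAZ.TorsCmp12.BaseChangeH1

set_option autoImplicit false
set_option linter.unusedSectionVars false

universe u

open TensorProduct AlgebraicCurve

namespace Fermat.Agent.MAZ.TorsCmp12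

open Fermat.Agent.Jac Fermat.Agent.Jac.BaseChange75
open scoped Fermat.Agent.Jac.BaseChange75

variable {W B0 B1 B01 : Type u} [CommRing W] [CommRing B0] [CommRing B1] [CommRing B01]
  [Algebra W B0] [Algebra W B1] [Algebra W B01] [Algebra B0 B01] [Algebra B1 B01]
  [IsScalarTower W B0 B01] [IsScalarTower W B1 B01]
  (c0 : TwoChart W B0 B1 B01)

section One

variable (K F : Type u) [Field K] [Algebra W K] [Field F] [Algebra K F]
  [IsDedekindDomain (K ⊗[W] B0)] [IsDedekindDomain (K ⊗[W] B1)]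
  [Algebra (K ⊗[W] B0) F] [Algebra (K ⊗[W] B1) F] [Algebra (K ⊗[W] B01) F]
  [IsScalarTower K (K ⊗[W] B0) F] [IsScalarTower K (K ⊗[W] B1) F]
  [IsScalarTower (K ⊗[W] B0) (K ⊗[W] B01) F] [IsScalarTower (K ⊗[W] B1) (K ⊗[W] B01) F]
  [IsFractionRing (K ⊗[W] B0) F] [IsFractionRing (K ⊗[W] B1) F]

include c0 in
/-- The genus of the generic fibre over `K` is `dim H¹(O)` of the base-changed model (finiteness
over the line assumed for the base-changed charts only). -/
theorem genusFF_baseChange_eq' (hc : (c0.baseChange K).FiniteProjOverLine) :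
    genusFF K F =
      Module.finrank K (QC2.unit : QC2 K (K ⊗[W] B0) (K ⊗[W] B1) (K ⊗[W] B01)).H1 :=
  (finrank_unit_H1_eq_genusFF (F := F) (c0.baseChange K) hc).symm

include c0 in
/-- The genus of the generic fibre over `K` is `dim H¹(O)` of the base-changed model. -/
theorem genusFF_baseChange_eq (hc0 : c0.FiniteProjOverLine) :
    genusFF K F =
      Module.finrank K (QC2.unit : QC2 K (K ⊗[W] B0) (K ⊗[W] B1) (K ⊗[W] B01)).H1 :=
  genusFF_baseChange_eq' c0 K F (hc0.baseChange K)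

end One

section Two

variable (K1 K2 : Type u) [Field K1] [Field K2] [Algebra W K1] [Algebra W K2] [Algebra K1 K2]
  [IsScalarTower W K1 K2]
  (F1 F2 : Type u) [Field F1] [Algebra K1 F1] [Field F2] [Algebra K2 F2]
  [IsDedekindDomain (K1 ⊗[W] B0)] [IsDedekindDomain (K1 ⊗[W] B1)]
  [Algebra (K1 ⊗[W] B0) F1] [Algebra (K1 ⊗[W] B1) F1] [Algebra (K1 ⊗[W] B01) F1]
  [IsScalarTower K1 (K1 ⊗[W] B0) F1] [IsScalarTower K1 (K1 ⊗[W] B1) F1]
  [IsScalarTower (K1 ⊗[W] B0) (K1 ⊗[W] B01) F1] [IsScalarTower (K1 ⊗[W] B1) (K1 ⊗[W] B01) F1]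
  [IsFractionRing (K1 ⊗[W] B0) F1] [IsFractionRing (K1 ⊗[W] B1) F1]
  [IsDedekindDomain (K2 ⊗[W] B0)] [IsDedekindDomain (K2 ⊗[W] B1)]
  [Algebra (K2 ⊗[W] B0) F2] [Algebra (K2 ⊗[W] B1) F2] [Algebra (K2 ⊗[W] B01) F2]
  [IsScalarTower K2 (K2 ⊗[W] B0) F2] [IsScalarTower K2 (K2 ⊗[W] B1) F2]
  [IsScalarTower (K2 ⊗[W] B0) (K2 ⊗[W] B01) F2] [IsScalarTower (K2 ⊗[W] B1) (K2 ⊗[W] B01) F2]
  [IsFractionRing (K2 ⊗[W] B0) F2] [IsFractionRing (K2 ⊗[W] B1) F2]

include c0 in
/-- **(T3)**, with finiteness over the line assumed for the two base-changed models only. -/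
theorem genusFF_eq_of_baseChange' (hc1 : (c0.baseChange K1).FiniteProjOverLine)
    (hc2 : (c0.baseChange K2).FiniteProjOverLine) : genusFF K2 F2 = genusFF K1 F1 := by
  rw [genusFF_baseChange_eq' c0 K2 F2 hc2, genusFF_baseChange_eq' c0 K1 F1 hc1]
  exact finrank_unit_H1_baseChange K1 K2

include c0 in
/-- **(T3)**: the genus of the generic fibre does not depend on the base field. -/
theorem genusFF_eq_of_baseChange (hc0 : c0.FiniteProjOverLine) :
    genusFF K2 F2 = genusFF K1 F1 :=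
  genusFF_eq_of_baseChange' c0 K1 K2 F1 F2 (hc0.baseChange K1) (hc0.baseChange K2)

include c0 in
/-- **(T3)** in the shape asked for by the TORS-CMP count. -/
theorem genusFF_le_of_baseChange (hc0 : c0.FiniteProjOverLine) :
    genusFF K2 F2 ≤ genusFF K1 F1 :=
  (genusFF_eq_of_baseChange c0 K1 K2 F1 F2 hc0).le

end Two

end Fermat.Agent.MAZ.TorsCmp12
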