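/-
Programme MAZ (S15), brick U6 TORS-CMP, part (T3) GENUS (helper12), file 4: OVERLAP FORM.

The only datum on the function field `F` is ONE algebra structure `R01 → F` making `F` the fraction
field of the overlap ring `R01` (e.g. `F = FractionRing R01`, or `F` = any field receiving an
injective map from `R01` with `F = Frac`).  The maps `R0 → F`, `R1 → F` are the composites.

* `finrank_unit_H1_eq_genusFF_of_overlap c hfin0 hfin1 : finrank K (QC2.unit).H1 = genusFF K F`;
* `genusFF_eq_of_isFractionRing` : two fields `F`, `F'` which are both fraction fields of `R01`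
  have the same genus (no isomorphism has to be constructed);
* `genusFF_eq_of_baseChange_overlap` : **(T3)** for `F_i` ANY fraction field of `K_i ⊗[W] B01`
  (e.g. helper94's `TorsCmp94.FOmega`).
-/
import Mathlib
import Fermat.Agent.MAZ.TorsCmp12.Genus
import Fermat.Agent.MAZ.TorsCmp94.Curve

set_option autoImplicit false
set_option linter.unusedSectionVars false
set_option linter.style.haveILetI false

universe u

open TensorProduct AlgebraicCurve Polynomial

namespace Fermat.Agent.MAZ.TorsCmp12

open Fermat.Agent.Jac Fermat.Agent.Jac.BaseChange75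
open scoped Fermat.Agent.Jac.BaseChange75

section Overlap

variable {K F R0 R1 R01 : Type u} [Field K] [Field F] [Algebra K F]
  [CommRing R0] [CommRing R1] [CommRing R01] [Algebra K R0] [Algebra K R1] [Algebra K R01]
  [Algebra R0 R01] [Algebra R1 R01] [IsScalarTower K R0 R01] [IsScalarTower K R1 R01]
  [IsDedekindDomain R0] [IsDedekindDomain R1] [IsDomain R01]
  [Algebra R01 F] [IsScalarTower K R01 F] [IsFractionRing R01 F]
  (c : TwoChart K R0 R1 R01)

include c in
/-- **The genus is `dim H¹(O)`**, overlap form: `F` is any fraction field of `R01`. -/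
theorem finrank_unit_H1_eq_genusFF_of_overlap
    (hfin0 : Module.Finite K[X] (Module.AEval K R0 c.t))
    (hfin1 : Module.Finite K[X] (Module.AEval K R1 c.s)) :
    Module.finrank K (QC2.unit : QC2 K R0 R1 R01).H1 = genusFF K F := by
  letI : Algebra R0 F := ((algebraMap R01 F).comp (algebraMap R0 R01)).toAlgebra
  letI : Algebra R1 F := ((algebraMap R01 F).comp (algebraMap R1 R01)).toAlgebra
  haveI : IsScalarTower R0 R01 F := IsScalarTower.of_algebraMap_eq fun _ => rfl
  haveI : IsScalarTower R1 R01 F := IsScalarTower.of_algebraMap_eq fun _ => rfl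
  haveI : IsScalarTower K R0 F := Fermat.Agent.MAZ.TorsCmp94.tower_of_mid K R0 R01 F
  haveI : IsScalarTower K R1 F := Fermat.Agent.MAZ.TorsCmp94.tower_of_mid K R1 R01 F
  haveI : IsFractionRing R0 F := Fermat.Agent.MAZ.TorsCmp94.isFractionRing0 c
  haveI : IsFractionRing R1 F := Fermat.Agent.MAZ.TorsCmp94.isFractionRing1 c
  exact finrank_unit_H1_eq_genusFF_of_finite c hfin0 hfin1

include c in
/-- Two fraction fields of the overlap ring have the same genus. -/
theorem genusFF_eq_of_isFractionRing (F' : Type u) [Field F'] [Algebra K F'] [Algebra R01 F']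
    [IsScalarTower K R01 F'] [IsFractionRing R01 F']
    (hfin0 : Module.Finite K[X] (Module.AEval K R0 c.t))
    (hfin1 : Module.Finite K[X] (Module.AEval K R1 c.s)) :
    genusFF K F = genusFF K F' := by
  rw [← finrank_unit_H1_eq_genusFF_of_overlap (F := F) c hfin0 hfin1,
    ← finrank_unit_H1_eq_genusFF_of_overlap (F := F') c hfin0 hfin1]

end Overlap

section BaseChange

variable {W B0 B1 B01 : Type u} [CommRing W] [CommRing B0] [CommRing B1] [CommRing B01]
  [Algebra W B0] [Algebra W B1] [Algebra W B01] [Algebra B0 B01] [Algebra B1 B01]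
  [IsScalarTower W B0 B01] [IsScalarTower W B1 B01]
  (c0 : TwoChart W B0 B1 B01)
  (K1 K2 : Type u) [Field K1] [Field K2] [Algebra W K1] [Algebra W K2] [Algebra K1 K2]
  [IsScalarTower W K1 K2]
  (F1 F2 : Type u) [Field F1] [Algebra K1 F1] [Field F2] [Algebra K2 F2]
  [IsDedekindDomain (K1 ⊗[W] B0)] [IsDedekindDomain (K1 ⊗[W] B1)] [IsDomain (K1 ⊗[W] B01)]
  [Algebra (K1 ⊗[W] B01) F1] [IsScalarTower K1 (K1 ⊗[W] B01) F1]
  [IsFractionRing (K1 ⊗[W] B01) F1]
  [IsDedekindDomain (K2 ⊗[W] B0)] [IsDedekindDomain (K2 ⊗[W] B1)] [IsDomain (K2 ⊗[W] B01)]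
  [Algebra (K2 ⊗[W] B01) F2] [IsScalarTower K2 (K2 ⊗[W] B01) F2]
  [IsFractionRing (K2 ⊗[W] B01) F2]

include c0 in
/-- **(T3), overlap form**: `F_i` any fraction field of `K_i ⊗[W] B01`. -/
theorem genusFF_eq_of_baseChange_overlap (hc1 : (c0.baseChange K1).FiniteProjOverLine)
    (hc2 : (c0.baseChange K2).FiniteProjOverLine) : genusFF K2 F2 = genusFF K1 F1 := by
  rw [← finrank_unit_H1_eq_genusFF_of_overlap (F := F2) (c0.baseChange K2) hc2.fin0 hc2.fin1,
    ← finrank_unit_H1_eq_genusFF_of_overlap (F := F1) (c0.baseChange K1) hc1.fin0 hc1.fin1]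
  exact finrank_unit_H1_baseChange K1 K2

include c0 in
/-- **(T3), overlap form**, from finiteness over the line of the model over `W`. -/
theorem genusFF_le_of_baseChange_overlap (hc0 : c0.FiniteProjOverLine) :
    genusFF K2 F2 ≤ genusFF K1 F1 :=
  (genusFF_eq_of_baseChange_overlap c0 K1 K2 F1 F2 (hc0.baseChange K1) (hc0.baseChange K2)).le

end BaseChange

end Fermat.Agent.MAZ.TorsCmp12
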