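/-
Programme MAZ (S15), brick U6 TORS-CMP, part (T3) GENUS (helper12), file 5: the statement on
helper94's function fields `FOmega Ω = FractionRing (Ω ⊗[W] B01)`.

* `genusFF_FOmega_eq c0 K1 K2 hc0 : genusFF K2 (FOmega K2) = genusFF K1 (FOmega K1)` — the genus of
  the generic fibre of the two-chart model does not depend on the field over `W`;
* `genusFF_FOmega_le_of_isFractionRing` : for ANY field `F1` that is a fraction field of
  `K1 ⊗[W] B01` (e.g. `F̄_N` for `K1 = ℚ̄`): `genusFF K2 (FOmega K2) ≤ genusFF K1 F1`.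
-/
import Mathlib
import Fermat.Agent.MAZ.TorsCmp12.Overlap
import Fermat.Agent.MAZ.TorsCmp94.BaseChange

set_option autoImplicit false
set_option linter.unusedSectionVars false
set_option linter.style.haveILetI false
set_option synthInstance.maxHeartbeats 400000

universe u

open TensorProduct AlgebraicCurve Polynomial

namespace Fermat.Agent.MAZ.TorsCmp12

open Fermat.Agent.Jac Fermat.Agent.Jac.BaseChange75 Fermat.Agent.MAZ.TorsCmp94
open scoped Fermat.Agent.Jac.BaseChange75

section FOmega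

variable {W B0 B1 B01 : Type u} [CommRing W] [CommRing B0] [CommRing B1] [CommRing B01]
  [Algebra W B0] [Algebra W B1] [Algebra W B01] [Algebra B0 B01] [Algebra B1 B01]
  [IsScalarTower W B0 B01] [IsScalarTower W B1 B01]
  (c0 : TwoChart W B0 B1 B01)
  (K1 K2 : Type u) [Field K1] [Field K2] [Algebra W K1] [Algebra W K2] [Algebra K1 K2]
  [IsScalarTower W K1 K2]
  [IsDedekindDomain (K1 ⊗[W] B0)] [IsDedekindDomain (K1 ⊗[W] B1)] [IsDomain (K1 ⊗[W] B01)]
  [IsDedekindDomain (K2 ⊗[W] B0)] [IsDedekindDomain (K2 ⊗[W] B1)] [IsDomain (K2 ⊗[W] B01)]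

include c0 in
/-- **(T3) on `FOmega`**: the genus of `Frac (K ⊗[W] B01)` does not depend on the field `K`
over `W`. -/
theorem genusFF_FOmega_eq (hc0 : c0.FiniteProjOverLine) :
    genusFF K2 (FOmega (W := W) (B01 := B01) K2) =
      genusFF K1 (FOmega (W := W) (B01 := B01) K1) :=
  genusFF_eq_of_baseChange_overlap c0 K1 K2 (FOmega (W := W) (B01 := B01) K1)
    (FOmega (W := W) (B01 := B01) K2) (hc0.baseChange K1) (hc0.baseChange K2)

include c0 in
/-- **(T3), final shape for TORS-CMP**: `F1` ANY fraction field of `K1 ⊗[W] B01` (only datum: the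
algebra structure `K1 ⊗[W] B01 → F1`); then `genus (FOmega K2) = genus F1`. -/
theorem genusFF_FOmega_eq_of_isFractionRing (hc0 : c0.FiniteProjOverLine)
    (F1 : Type u) [Field F1] [Algebra K1 F1] [Algebra (K1 ⊗[W] B01) F1]
    [IsScalarTower K1 (K1 ⊗[W] B01) F1] [IsFractionRing (K1 ⊗[W] B01) F1] :
    genusFF K2 (FOmega (W := W) (B01 := B01) K2) = genusFF K1 F1 :=
  genusFF_eq_of_baseChange_overlap c0 K1 K2 F1
    (FOmega (W := W) (B01 := B01) K2) (hc0.baseChange K1) (hc0.baseChange K2)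

include c0 in
theorem genusFF_FOmega_le_of_isFractionRing (hc0 : c0.FiniteProjOverLine)
    (F1 : Type u) [Field F1] [Algebra K1 F1] [Algebra (K1 ⊗[W] B01) F1]
    [IsScalarTower K1 (K1 ⊗[W] B01) F1] [IsFractionRing (K1 ⊗[W] B01) F1] :
    genusFF K2 (FOmega (W := W) (B01 := B01) K2) ≤ genusFF K1 F1 :=
  (genusFF_FOmega_eq_of_isFractionRing c0 K1 K2 hc0 F1).le

end FOmega

/-! ### From an injective, fraction-surjective map -/

section OfHom

variable {W B0 B1 B01 : Type u} [CommRing W] [CommRing B0] [CommRing B1] [CommRing B01]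
  [Algebra W B0] [Algebra W B1] [Algebra W B01] [Algebra B0 B01] [Algebra B1 B01]
  [IsScalarTower W B0 B01] [IsScalarTower W B1 B01]
  (c0 : TwoChart W B0 B1 B01)
  (K1 K2 : Type u) [Field K1] [Field K2] [Algebra W K1] [Algebra W K2] [Algebra K1 K2]
  [IsScalarTower W K1 K2]
  [IsDedekindDomain (K1 ⊗[W] B0)] [IsDedekindDomain (K1 ⊗[W] B1)] [IsDomain (K1 ⊗[W] B01)]
  [IsDedekindDomain (K2 ⊗[W] B0)] [IsDedekindDomain (K2 ⊗[W] B1)] [IsDomain (K2 ⊗[W] B01)]

include c0 in
/-- **(T3) from a hub homomorphism**: `ι : K1 ⊗[W] B01 →ₐ[K1] F1` injective such that every element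
of the field `F1` is a quotient of two values of `ι`.  Then `genus (FOmega K2) = genus F1`.
No field isomorphism and no transport of `genusFF` is needed. -/
theorem genusFF_FOmega_eq_of_algHom (hc0 : c0.FiniteProjOverLine)
    (F1 : Type u) [Field F1] [Algebra K1 F1] (ι : (K1 ⊗[W] B01) →ₐ[K1] F1)
    (hinj : Function.Injective ι) (hsurj : ∀ z : F1, ∃ x y : K1 ⊗[W] B01, z = ι x / ι y) :
    genusFF K2 (FOmega (W := W) (B01 := B01) K2) = genusFF K1 F1 := by
  letI : Algebra (K1 ⊗[W] B01) F1 := ι.toRingHom.toAlgebra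
  haveI : IsScalarTower K1 (K1 ⊗[W] B01) F1 :=
    IsScalarTower.of_algebraMap_eq fun a => (ι.commutes a).symm
  haveI : FaithfulSMul (K1 ⊗[W] B01) F1 :=
    (faithfulSMul_iff_algebraMap_injective _ _).mpr hinj
  haveI : IsFractionRing (K1 ⊗[W] B01) F1 := IsFractionRing.of_field _ _ hsurj
  exact genusFF_FOmega_eq_of_isFractionRing c0 K1 K2 hc0 F1

include c0 in
theorem genusFF_FOmega_le_of_algHom (hc0 : c0.FiniteProjOverLine)
    (F1 : Type u) [Field F1] [Algebra K1 F1] (ι : (K1 ⊗[W] B01) →ₐ[K1] F1)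
    (hinj : Function.Injective ι) (hsurj : ∀ z : F1, ∃ x y : K1 ⊗[W] B01, z = ι x / ι y) :
    genusFF K2 (FOmega (W := W) (B01 := B01) K2) ≤ genusFF K1 F1 :=
  (genusFF_FOmega_eq_of_algHom c0 K1 K2 hc0 F1 ι hinj hsurj).le

end OfHom

end Fermat.Agent.MAZ.TorsCmp12
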